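/-
S25 (Jacobian), package B2 "OpenCriterion" (helper1945).

Affine-local criterion for a morphism `yoneda X ⟶ F` into a Zariski sheaf to be relatively
representable by open immersions, and the resulting representability "machine":
a Zariski sheaf covered by affine-locally-open representable subfunctors is representable.
Mathlib only; no sorry.
-/
import Mathlib

set_option autoImplicit false

universe u

open CategoryTheory Opposite AlgebraicGeometry

namespace Fermat.Agent.S25.MACH.OpenCriterion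

variable {F : Sheaf Scheme.zariskiTopology.{u} (Type u)} {X : Scheme.{u}}
  (f : yoneda.obj X ⟶ F.1)

/-- `f` is injective on `Spec R`-points for every ring `R`. -/
def AffInj : Prop :=
  ∀ R : CommRingCat.{u}, Function.Injective (f.app (op (Spec R)))

/-- For every affine `Spec R` and every section `ξ` of `F` over it, the locus where `ξ` comes
from `X` is an open subset `W` of `Spec R`, in the sense that for every ring map `φ : R ⟶ R'`,
`ξ|_{Spec R'}` is in the image of `f` iff `Spec R' ⟶ Spec R` lands in `W`. -/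
def AffOpen : Prop :=
  ∀ (R : CommRingCat.{u}) (ξ : F.1.obj (op (Spec R))), ∃ W : (Spec R).Opens,
    ∀ (R' : CommRingCat.{u}) (φ : R ⟶ R'),
      F.1.map (Spec.map φ).op ξ ∈ Set.range (f.app (op (Spec R'))) ↔
        Set.range ⇑(Spec.map φ) ⊆ (W : Set (Spec R))

theorem nat_app {T T' : Scheme.{u}} (g : T' ⟶ T) (a : T ⟶ X) :
    f.app (op T') (g ≫ a) = F.1.map g.op (f.app (op T) a) := by
  have := NatTrans.naturality_apply f g.op a
  simpa using this

theorem map_comp_app {T T' T'' : Scheme.{u}} (g : T' ⟶ T) (h : T'' ⟶ T')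
    (ξ : F.1.obj (op T)) :
    F.1.map (h ≫ g).op ξ = F.1.map h.op (F.1.map g.op ξ) := by
  simp

theorem sheaf_ext {T : Scheme.{u}} (𝒰 : T.OpenCover) (a b : F.1.obj (op T))
    (h : ∀ j, F.1.map (𝒰.f j).op a = F.1.map (𝒰.f j).op b) : a = b := by
  have hs := ((isSheaf_iff_isSheaf_of_type _ _).1 F.2).isSeparated _ 𝒰.mem_grothendieckTopology
  refine hs.ext ?_
  rintro Y g ⟨Z, g', _, ⟨j⟩, rfl⟩
  simp [h j]

variable {f}

/-- Injectivity on affine points implies injectivity on all points. -/
theorem injective_app (hinj : AffInj f) (T : Scheme.{u}) :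
    Function.Injective (f.app (op T)) := by
  intro a b hab
  refine T.affineCover.hom_ext a b fun j => ?_
  have h1 : f.app (op (T.affineCover.X j)) (T.affineCover.f j ≫ a) =
      f.app (op (T.affineCover.X j)) (T.affineCover.f j ≫ b) := by
    rw [nat_app, nat_app, hab]
  exact hinj _ h1

/-- A section which locally comes from `X` comes from `X`. -/
theorem mem_range_of_cover (hinj : AffInj f) {V : Scheme.{u}} (𝒰 : V.OpenCover)
    (η : F.1.obj (op V))
    (h : ∀ j, F.1.map (𝒰.f j).op η ∈ Set.range (f.app (op (𝒰.X j)))) :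
    η ∈ Set.range (f.app (op V)) := by
  choose x hx using h
  have hglue : ∀ i j, Limits.pullback.fst (𝒰.f i) (𝒰.f j) ≫ x i =
      Limits.pullback.snd (𝒰.f i) (𝒰.f j) ≫ x j := by
    intro i j
    apply injective_app hinj
    rw [nat_app, nat_app, hx, hx, ← map_comp_app, ← map_comp_app, Limits.pullback.condition]
  refine ⟨𝒰.glueMorphisms x hglue, ?_⟩
  refine sheaf_ext 𝒰 _ _ fun j => ?_
  rw [← nat_app, 𝒰.ι_glueMorphisms, hx]

variable (f)

/-- The locus of `T` where the section `ξ` comes from `X`. -/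
def goodSet {T : Scheme.{u}} (ξ : F.1.obj (op T)) : Set T :=
  {t | ∃ (U : Scheme.{u}) (j : U ⟶ T), IsOpenImmersion j ∧ t ∈ Set.range ⇑j ∧
    F.1.map j.op ξ ∈ Set.range (f.app (op U))}

theorem isOpen_goodSet {T : Scheme.{u}} (ξ : F.1.obj (op T)) : IsOpen (goodSet f ξ) := by
  rw [isOpen_iff_forall_mem_open]
  rintro t ⟨U, j, hj, ht, hξ⟩
  exact ⟨Set.range ⇑j, fun t' ht' => ⟨U, j, hj, ht', hξ⟩, j.isOpenEmbedding.isOpen_range, ht⟩

/-- The open locus of `T` where the section `ξ` comes from `X`. -/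
def goodOpens {T : Scheme.{u}} (ξ : F.1.obj (op T)) : T.Opens :=
  ⟨goodSet f ξ, isOpen_goodSet f ξ⟩

variable {f}

theorem restrict_goodOpens_mem_range (hinj : AffInj f) {T : Scheme.{u}} (ξ : F.1.obj (op T)) :
    F.1.map (goodOpens f ξ).ι.op ξ ∈ Set.range (f.app (op (goodOpens f ξ).toScheme)) := by
  set W := goodOpens f ξ with hW
  have key : ∀ w : W, ∃ (U : Scheme.{u}) (j : U ⟶ T), IsOpenImmersion j ∧
      (w : T) ∈ Set.range ⇑j ∧ F.1.map j.op ξ ∈ Set.range (f.app (op U)) := fun w => w.2
  choose U j hj hw hξ using key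
  have hsub : ∀ w : W, Set.range ⇑(j w) ⊆ Set.range ⇑W.ι := by
    intro w t ht
    rw [Scheme.Opens.range_ι]
    exact ⟨U w, j w, hj w, ht, hξ w⟩
  let j' : ∀ w : W, U w ⟶ W.toScheme := fun w =>
    have := hj w
    IsOpenImmersion.lift W.ι (j w) (hsub w)
  have hj' : ∀ w : W, j' w ≫ W.ι = j w := fun w =>
    have := hj w
    IsOpenImmersion.lift_fac W.ι (j w) (hsub w)
  have hopen : ∀ w : W, IsOpenImmersion (j' w) := by
    intro w
    have : IsOpenImmersion (j' w ≫ W.ι) := by rw [hj' w]; exact hj w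
    exact IsOpenImmersion.of_comp (j' w) W.ι
  have hcov : ∀ w : W.toScheme, ∃ (i : W) (y : U i), (j' i) y = w := by
    intro w
    obtain ⟨y, hy⟩ := hw w
    refine ⟨w, y, ?_⟩
    apply W.ι.isOpenEmbedding.injective
    rw [← Scheme.Hom.comp_apply, hj' w, hy]
    rfl
  let 𝒰 : W.toScheme.OpenCover := Scheme.Cover.mkOfCovers W U j' hcov hopen
  refine mem_range_of_cover hinj 𝒰 _ fun w => ?_
  change F.1.map (j' w).op (F.1.map W.ι.op ξ) ∈ _
  rw [← map_comp_app, hj' w]
  exact hξ w

/-- Key lemma: if on `Spec R` the locus `W` satisfies the `AffOpen` property for `ξ`,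
then `ξ|_W` comes from `X`. -/
theorem restrict_mem_range_of_affOpen (hinj : AffInj f) {R : CommRingCat.{u}}
    (ξ : F.1.obj (op (Spec R))) (W : (Spec R).Opens)
    (hW : ∀ (R' : CommRingCat.{u}) (φ : R ⟶ R'),
      F.1.map (Spec.map φ).op ξ ∈ Set.range (f.app (op (Spec R'))) ↔
        Set.range ⇑(Spec.map φ) ⊆ (W : Set (Spec R))) :
    F.1.map W.ι.op ξ ∈ Set.range (f.app (op W.toScheme)) := by
  refine mem_range_of_cover hinj W.toScheme.affineCover _ fun i => ?_
  rw [← map_comp_app]
  have h1 : W.toScheme.affineCover.f i ≫ W.ι =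
      Spec.map (Spec.preimage (W.toScheme.affineCover.f i ≫ W.ι)) := (Spec.map_preimage _).symm
  rw [h1]
  apply (hW _ _).2
  rw [← h1]
  rw [Set.range_subset_iff]
  intro y
  have h2 : (W.toScheme.affineCover.f i ≫ W.ι) y = W.ι (W.toScheme.affineCover.f i y) :=
    Scheme.Hom.comp_apply _ _ _
  exact h2 ▸ (W.toScheme.affineCover.f i y).2

theorem exists_spec_nbhd (P : Scheme.{u}) (z : P) :
    ∃ (R : CommRingCat.{u}) (k : Spec R ⟶ P), IsOpenImmersion k ∧ ∃ y, k y = z := by
  obtain ⟨i, y, hy⟩ := P.affineCover.exists_eq z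
  exact ⟨_, P.affineCover.f i, P.affineCover.map_prop i, y, hy⟩

/-- The good locus classifies the points of `T` at which `ξ` comes from `X`. -/
theorem map_mem_range_iff (hinj : AffInj f) (hopen : AffOpen f) {T V : Scheme.{u}}
    (ξ : F.1.obj (op T)) (v : V ⟶ T) :
    F.1.map v.op ξ ∈ Set.range (f.app (op V)) ↔
      Set.range ⇑v ⊆ (goodOpens f ξ : Set T) := by
  constructor
  · rintro ⟨x, hx⟩
    rw [Set.range_subset_iff]
    intro p
    -- affine chart of `T` around `v p`
    obtain ⟨R, j, hj, u, hu⟩ := exists_spec_nbhd T (v p)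
    obtain ⟨W, hW⟩ := hopen R (F.1.map j.op ξ)
    -- a point of the pullback over `p` and `u`
    obtain ⟨z, hz1, hz2⟩ := Scheme.Pullback.exists_preimage_pullback (f := v) (g := j) p u hu.symm
    obtain ⟨R', k, hk, y, hy⟩ := exists_spec_nbhd (Limits.pullback v j) z
    have h1 : k ≫ Limits.pullback.snd v j =
        Spec.map (Spec.preimage (k ≫ Limits.pullback.snd v j)) := (Spec.map_preimage _).symm
    have h2 : F.1.map (k ≫ Limits.pullback.snd v j).op (F.1.map j.op ξ) ∈
        Set.range (f.app (op (Spec R'))) := by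
      refine ⟨(k ≫ Limits.pullback.fst v j) ≫ x, ?_⟩
      rw [nat_app, hx, ← map_comp_app, ← map_comp_app, Category.assoc, Category.assoc,
        Limits.pullback.condition]
    rw [h1] at h2
    have h3 := (hW _ _).1 h2
    rw [← h1] at h3
    have h4 : u ∈ (W : Set (Spec R)) := by
      apply h3
      refine ⟨y, ?_⟩
      have h5 : (k ≫ Limits.pullback.snd v j) y = Limits.pullback.snd v j (k y) :=
        Scheme.Hom.comp_apply _ _ _
      exact h5.trans ((congrArg (Limits.pullback.snd v j) hy).trans hz2)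
    -- now `W.ι ≫ j` is an open immersion through which `ξ` comes from `X`
    refine ⟨W.toScheme, W.ι ≫ j, inferInstance, ⟨⟨u, h4⟩, ?_⟩, ?_⟩
    · have h6 : (W.ι ≫ j) ⟨u, h4⟩ = j (W.ι ⟨u, h4⟩) := Scheme.Hom.comp_apply _ _ _
      exact h6.trans hu
    · rw [map_comp_app]
      exact restrict_mem_range_of_affOpen hinj _ W hW
  · intro h
    obtain ⟨a, ha⟩ := restrict_goodOpens_mem_range hinj ξ
    have h' : Set.range ⇑v ⊆ Set.range ⇑(goodOpens f ξ).ι := by
      rw [Scheme.Opens.range_ι]; exact h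
    refine ⟨IsOpenImmersion.lift (goodOpens f ξ).ι v h' ≫ a, ?_⟩
    rw [nat_app, ha, ← map_comp_app, IsOpenImmersion.lift_fac]

theorem app_eq_map {T V : Scheme.{u}} (v : V ⟶ T)
    (g' : yoneda.obj T ⟶ F.1) : g'.app (op V) v = F.1.map v.op (yonedaEquiv g') := by
  have := NatTrans.naturality_apply g' v.op (𝟙 T)
  rw [yonedaEquiv_apply]
  simpa using this

/-- **Affine-local criterion.**  A morphism `yoneda X ⟶ F` to a Zariski sheaf which is
injective on affine points and affine-locally "open" is relatively representable by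
open immersions. -/
theorem isOpenImmersion_presheaf (hinj : AffInj f) (hopen : AffOpen f) :
    IsOpenImmersion.presheaf f := by
  apply MorphismProperty.relative.of_exists
  intro T g
  obtain ⟨a, ha⟩ := restrict_goodOpens_mem_range hinj (yonedaEquiv g)
  refine ⟨(goodOpens f (yonedaEquiv g)).toScheme, yoneda.map a, (goodOpens f (yonedaEquiv g)).ι,
    ?_, inferInstance⟩
  apply IsPullback.of_forall_isPullback_app
  intro V
  rw [Limits.Types.isPullback_iff]
  refine ⟨?_, ?_, ?_⟩
  · ext v'
    change f.app V (v' ≫ a) = g.app V (v' ≫ (goodOpens f (yonedaEquiv g)).ι)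
    have h1 := app_eq_map (v' ≫ (goodOpens f (yonedaEquiv g)).ι) g
    have h2 := nat_app f v' a
    rw [ha, ← map_comp_app] at h2
    exact h2.trans h1.symm
  · rintro v₁ v₂ ⟨-, h⟩
    change v₁ ≫ (goodOpens f (yonedaEquiv g)).ι = v₂ ≫ (goodOpens f (yonedaEquiv g)).ι at h
    exact (cancel_mono _).1 h
  · intro (x : V.unop ⟶ X) (v : V.unop ⟶ T) hxv
    have h1 : F.1.map v.op (yonedaEquiv g) ∈ Set.range (f.app (op V.unop)) :=
      ⟨x, hxv.trans (app_eq_map v g)⟩
    have h2 := (map_mem_range_iff hinj hopen (yonedaEquiv g) v).1 h1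
    have h' : Set.range ⇑v ⊆ Set.range ⇑(goodOpens f (yonedaEquiv g)).ι := by
      rw [Scheme.Opens.range_ι]; exact h2
    refine ⟨IsOpenImmersion.lift (goodOpens f (yonedaEquiv g)).ι v h', ?_, ?_⟩
    · change IsOpenImmersion.lift (goodOpens f (yonedaEquiv g)).ι v h' ≫ a = x
      apply injective_app hinj
      rw [nat_app, ha, ← map_comp_app, IsOpenImmersion.lift_fac]
      exact (hxv.trans (app_eq_map v g)).symm
    · exact IsOpenImmersion.lift_fac _ _ _

section Family

variable {ι : Type u} {Xs : ι → Scheme.{u}} (φ : (i : ι) → yoneda.obj (Xs i) ⟶ F.1)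

/-- The charts cover `F` on points with values in algebraically closed fields. -/
def FieldCover : Prop :=
  ∀ (K : Type u) [Field K] [IsAlgClosed K] (ξ : F.1.obj (op (Spec (CommRingCat.of K)))),
    ∃ i, ξ ∈ Set.range ((φ i).app (op (Spec (CommRingCat.of K))))

variable {φ}

/-- If the charts cover `F` on geometric points, the good loci of any section cover. -/
theorem exists_mem_goodOpens (hinj : ∀ i, AffInj (φ i)) (hopen : ∀ i, AffOpen (φ i))
    (hcover : FieldCover φ) {T : Scheme.{u}} (ξ : F.1.obj (op T)) (t : T) :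
    ∃ i, t ∈ goodOpens (φ i) ξ := by
  let K := AlgebraicClosure (T.residueField t)
  let s : Spec (CommRingCat.of K) ⟶ T :=
    Spec.map (CommRingCat.ofHom (algebraMap (T.residueField t) K)) ≫ T.fromSpecResidueField t
  obtain ⟨i, hi⟩ := hcover K (F.1.map s.op ξ)
  refine ⟨i, ?_⟩
  have h := (map_mem_range_iff (hinj i) (hopen i) ξ s).1 hi
  have hne : Nonempty (Spec (CommRingCat.of K)) := inferInstance
  obtain ⟨y⟩ := hne
  have hy : s y = t := by
    have h1 : s y = T.fromSpecResidueField t
        (Spec.map (CommRingCat.ofHom (algebraMap (T.residueField t) K)) y) :=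
      Scheme.Hom.comp_apply _ _ _
    have h2 : T.fromSpecResidueField t
        (Spec.map (CommRingCat.ofHom (algebraMap (T.residueField t) K)) y) ∈
          Set.range ⇑(T.fromSpecResidueField t) := ⟨_, rfl⟩
    rw [Scheme.range_fromSpecResidueField] at h2
    exact h1.trans h2
  exact hy ▸ h ⟨y, rfl⟩

theorem isLocallySurjective_sigmaDesc (hinj : ∀ i, AffInj (φ i)) (hopen : ∀ i, AffOpen (φ i))
    (hcover : FieldCover φ) :
    Presheaf.IsLocallySurjective Scheme.zariskiTopology (Limits.Sigma.desc φ) := by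
  constructor
  intro T ξ
  have hcov : ∀ t : T, ∃ (i : ι) (y : (goodOpens (φ i) ξ).toScheme),
      (goodOpens (φ i) ξ).ι y = t := by
    intro t
    obtain ⟨i, hi⟩ := exists_mem_goodOpens hinj hopen hcover ξ t
    exact ⟨i, ⟨t, hi⟩, rfl⟩
  let 𝒰 : T.OpenCover := Scheme.Cover.mkOfCovers ι (fun i => (goodOpens (φ i) ξ).toScheme)
    (fun i => (goodOpens (φ i) ξ).ι) hcov (fun i => inferInstance)
  have key : ∀ (i : ι) (V : Scheme.{u}) (g' : V ⟶ (goodOpens (φ i) ξ).toScheme),
      ∃ t, (Limits.Sigma.desc φ).app (op V) t =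
        F.1.map (g' ≫ (goodOpens (φ i) ξ).ι).op ξ := by
    intro i V g'
    obtain ⟨a, ha⟩ := restrict_goodOpens_mem_range (hinj i) ξ
    refine ⟨(Limits.Sigma.ι (fun i => yoneda.obj (Xs i)) i).app (op V) (g' ≫ a), ?_⟩
    have h1 : ∀ x : V ⟶ Xs i, (Limits.Sigma.desc φ).app (op V)
        ((Limits.Sigma.ι (fun i => yoneda.obj (Xs i)) i).app (op V) x) =
        (φ i).app (op V) x := by
      intro x
      exact congrArg (fun (m : yoneda.obj (Xs i) ⟶ F.1) => m.app (op V) x)
        (Limits.Sigma.ι_desc φ i)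
    rw [h1, nat_app, ha, ← map_comp_app]
  refine GrothendieckTopology.superset_covering _ ?_ 𝒰.mem_grothendieckTopology
  rintro V v ⟨Z, g', _, ⟨i⟩, rfl⟩
  exact key i V g'

open Scheme.LocalRepresentability in
/-- **The machine.**  A Zariski sheaf `F` on schemes with a family of representable
subfunctors `φ i : yoneda (Xs i) ⟶ F` which are injective on affine points, affine-locally open,
and cover `F` on points with values in algebraically closed fields, is representable by a
scheme `J` which has an open cover by the `Xs i`. -/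
theorem exists_representableBy (hinj : ∀ i, AffInj (φ i)) (hopen : ∀ i, AffOpen (φ i))
    (hcover : FieldCover φ) :
    ∃ (J : Scheme.{u}) (r : F.1.RepresentableBy J) (j : ∀ i, Xs i ⟶ J),
      (∀ i, IsOpenImmersion (j i)) ∧ (∀ x : J, ∃ i, x ∈ Set.range ⇑(j i)) ∧
      ∀ i, r.homEquiv (j i) = yonedaEquiv (φ i) := by
  have hf : ∀ i, IsOpenImmersion.presheaf (φ i) :=
    fun i => isOpenImmersion_presheaf (hinj i) (hopen i)
  have := isLocallySurjective_sigmaDesc hinj hopen hcover
  refine ⟨(glueData hf).glued, representableBy hf, toGlued hf, fun i => inferInstance, ?_, ?_⟩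
  · intro x
    obtain ⟨i, y, hy⟩ := (glueData hf).ι_jointly_surjective x
    exact ⟨i, y, hy⟩
  · intro i
    exact yonedaGluedToSheaf_app_toGlued hf

/-- The machine, in terms of a universal element. -/
theorem exists_universal (hinj : ∀ i, AffInj (φ i)) (hopen : ∀ i, AffOpen (φ i))
    (hcover : FieldCover φ) :
    ∃ (J : Scheme.{u}) (υ : F.1.obj (op J)) (j : ∀ i, Xs i ⟶ J),
      (∀ (T : Scheme.{u}) (ξ : F.1.obj (op T)), ∃! g : T ⟶ J, F.1.map g.op υ = ξ) ∧
      (∀ i, IsOpenImmersion (j i)) ∧ (∀ x : J, ∃ i, x ∈ Set.range ⇑(j i)) ∧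
      ∀ i, F.1.map (j i).op υ = yonedaEquiv (φ i) := by
  obtain ⟨J, r, j, h1, h2, h3⟩ := exists_representableBy hinj hopen hcover
  refine ⟨J, r.homEquiv (𝟙 J), j, ?_, h1, h2, ?_⟩
  · intro T ξ
    refine ⟨r.homEquiv.symm ξ, ?_, ?_⟩
    · change F.1.map (r.homEquiv.symm ξ).op (r.homEquiv (𝟙 J)) = ξ
      rw [← r.homEquiv_eq, Equiv.apply_symm_apply]
    · intro g hg
      change F.1.map g.op (r.homEquiv (𝟙 J)) = ξ at hg
      rw [← r.homEquiv_eq] at hg
      rw [← hg, Equiv.symm_apply_apply]
  · intro i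
    rw [← r.homEquiv_eq, h3]

end Family

end Fermat.Agent.S25.MACH.OpenCriterion
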