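/-
S25, package B3 (assembly / top-level reduction), helper6511.

Contents (everything is formal; no geometry):

* `PicTop.Obj`, `PicTop.PicQ`, `PicTop.PicQ.map`, `PicTop.picFunctor`:
  the functor `T ↦ { (t : T ⟶ Spec R, class of a rigidified line bundle on C ×_R T in the cut P) }`
  on ALL schemes (values in `Type (u+1)`), written without any `HEq`/transport.
* `PicTop.PicRepr P J`: a natural bijection `(T ⟶ J) ≃ PicQ P T` (i.e. `J` represents the functor).
* `PicTop.Model P F`: a `Type u`-valued functor `F` naturally equivalent to `picFunctor`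
  (this is what package B1 has to produce, e.g. by `Shrink`); `Model.picRepr` turns a Mathlib
  `F.RepresentableBy J` (e.g. from `Scheme.LocalRepresentability.representableBy`) into a `PicRepr`.
* `PicTop.PicRepr.exists_universal`: a `PicRepr` gives the Poincaré bundle and the universal
  property in the Prelude form.
* `PicTop.exists_designation_of_universal`, `PicTop.result_of_universal`, `PicTop.result_of_picRepr`:
  the frozen S25 conclusion from (universal family on `J`) + (Smooth, IsProper, GeometricallyConnected).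
-/
import Fermat.Statements.S25

set_option autoImplicit false

universe u

open CategoryTheory CategoryTheory.Limits AlgebraicGeometry AlgebraicGeometry.RelPicard NeronModelInfra
  GoodReductionJacobian Opposite

namespace Fermat.Agent.S25.MACH.PicTop

noncomputable section

variable {R : Type u} [CommRing R] {C : Scheme.{u}} {c : C ⟶ Spec (CommRingCat.of R)}
  {ε : SchemeHomOver (𝟙 (Spec (CommRingCat.of R))) c}

/-! ### Formal isomorphisms for `pullbackAlong` -/

/-- Pulling back along the identity (over any proof) does nothing. -/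
def pullbackAlongIdIso {T : Scheme.{u}} {t : T ⟶ Spec (CommRingCat.of R)}
    (N : RigidifiedLineBundle c ε t) (pf : 𝟙 T ≫ t = t) :
    (N.pullbackAlong ⟨𝟙 T, pf⟩).L ≅ N.L :=
  (Scheme.Modules.pullbackCongr (baseChangeSnd_id c t)).app N.L ≪≫
    (Scheme.Modules.pullbackId (pullback c t)).app N.L

/-- Pulling back twice is pulling back along the composite. -/
def pullbackAlongCompIso {T₀ T₁ T₂ : Scheme.{u}} {t₀ : T₀ ⟶ Spec (CommRingCat.of R)}
    {t₁ : T₁ ⟶ Spec (CommRingCat.of R)} {t₂ : T₂ ⟶ Spec (CommRingCat.of R)}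
    (N : RigidifiedLineBundle c ε t₀) (φ : SchemeHomOver t₁ t₀) (ψ : SchemeHomOver t₂ t₁) :
    ((N.pullbackAlong φ).pullbackAlong ψ).L ≅ (N.pullbackAlong (postComp φ ψ)).L :=
  (Scheme.Modules.pullbackComp _ _).app N.L ≪≫
    (Scheme.Modules.pullbackCongr (baseChangeSnd_comp c φ ψ)).app N.L

/-- `pullbackAlong` only depends on the underlying morphism. -/
def pullbackAlongCongrIso {T₀ T₁ : Scheme.{u}} {t₀ : T₀ ⟶ Spec (CommRingCat.of R)}
    {t₁ : T₁ ⟶ Spec (CommRingCat.of R)} (N : RigidifiedLineBundle c ε t₀)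
    {φ φ' : SchemeHomOver t₁ t₀} (h : φ = φ') :
    (N.pullbackAlong φ).L ≅ (N.pullbackAlong φ').L :=
  eqToIso (by rw [h])

/-- `pullbackAlong` preserves isomorphisms of the underlying sheaves. -/
def pullbackAlongMapIso {T₀ T₁ : Scheme.{u}} {t₀ : T₀ ⟶ Spec (CommRingCat.of R)}
    {t₁ : T₁ ⟶ Spec (CommRingCat.of R)} {N N' : RigidifiedLineBundle c ε t₀}
    (φ : SchemeHomOver t₁ t₀) (e : N.L ≅ N'.L) :
    (N.pullbackAlong φ).L ≅ (N'.pullbackAlong φ).L :=
  (Scheme.Modules.pullback (baseChangeSnd c φ)).mapIso e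

variable (c ε)

/-! ### The functor of points, on all schemes -/

/-- A rigidified line bundle in the cut `P` over *some* structure map `t : T ⟶ Spec R`. -/
structure Obj (P : SubPicCondition c ε) (T : Scheme.{u}) where
  t : T ⟶ Spec (CommRingCat.of R)
  M : RigidifiedLineBundle c ε t
  mem : P.P t M

variable {c ε}

/-- Two objects are equivalent if they have the same structure map and isomorphic sheaves. -/
def Obj.Rel {P : SubPicCondition c ε} {T : Scheme.{u}} (x y : Obj c ε P T) : Prop :=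
  ∃ h : x.t = y.t,
    Nonempty (x.M.L ≅ (y.M.pullbackAlong ⟨𝟙 T, (Category.id_comp _).trans h.symm⟩).L)

theorem Obj.rel_mk_iff {P : SubPicCondition c ε} {T : Scheme.{u}} {t : T ⟶ Spec (CommRingCat.of R)}
    (M M' : RigidifiedLineBundle c ε t) (hM : P.P t M) (hM' : P.P t M') :
    Obj.Rel (⟨t, M, hM⟩ : Obj c ε P T) ⟨t, M', hM'⟩ ↔ Nonempty (M.L ≅ M'.L) := by
  constructor
  · rintro ⟨_, ⟨e⟩⟩
    exact ⟨e ≪≫ pullbackAlongIdIso M' _⟩
  · rintro ⟨e⟩
    exact ⟨rfl, ⟨e ≪≫ (pullbackAlongIdIso M' _).symm⟩⟩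

theorem Obj.rel_refl {P : SubPicCondition c ε} {T : Scheme.{u}} (x : Obj c ε P T) : x.Rel x := by
  obtain ⟨t, M, hM⟩ := x
  exact (Obj.rel_mk_iff M M hM hM).2 ⟨Iso.refl _⟩

theorem Obj.rel_symm {P : SubPicCondition c ε} {T : Scheme.{u}} {x y : Obj c ε P T}
    (h : x.Rel y) : y.Rel x := by
  obtain ⟨t, M, hM⟩ := x
  obtain ⟨t', M', hM'⟩ := y
  obtain ⟨h1, h2⟩ := h
  dsimp only at h1
  subst h1
  obtain ⟨e⟩ := (Obj.rel_mk_iff M M' hM hM').1 ⟨rfl, h2⟩
  exact (Obj.rel_mk_iff M' M hM' hM).2 ⟨e.symm⟩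

theorem Obj.rel_trans {P : SubPicCondition c ε} {T : Scheme.{u}} {x y z : Obj c ε P T}
    (h : x.Rel y) (h' : y.Rel z) : x.Rel z := by
  obtain ⟨t, M, hM⟩ := x
  obtain ⟨t', M', hM'⟩ := y
  obtain ⟨t'', M'', hM''⟩ := z
  obtain ⟨h1, h2⟩ := h
  obtain ⟨h1', h2'⟩ := h'
  dsimp only at h1 h1'
  subst h1
  subst h1'
  obtain ⟨e⟩ := (Obj.rel_mk_iff M M' hM hM').1 ⟨rfl, h2⟩
  obtain ⟨e'⟩ := (Obj.rel_mk_iff M' M'' hM' hM'').1 ⟨rfl, h2'⟩
  exact (Obj.rel_mk_iff M M'' hM hM'').2 ⟨e ≪≫ e'⟩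

instance Obj.setoid (P : SubPicCondition c ε) (T : Scheme.{u}) : Setoid (Obj c ε P T) where
  r := Obj.Rel
  iseqv := ⟨Obj.rel_refl, Obj.rel_symm, Obj.rel_trans⟩

variable (c ε)

/-- `PicQ P T`: pairs (structure map `t` of `T`, class of a rigidified line bundle over `t` in `P`). -/
def PicQ (P : SubPicCondition c ε) (T : Scheme.{u}) : Type (u + 1) :=
  Quotient (Obj.setoid (c := c) (ε := ε) P T)

variable {c ε}

/-- The class of a bundle. -/
def PicQ.mk {P : SubPicCondition c ε} {T : Scheme.{u}} (t : T ⟶ Spec (CommRingCat.of R))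
    (M : RigidifiedLineBundle c ε t) (hM : P.P t M) : PicQ c ε P T :=
  Quotient.mk _ ⟨t, M, hM⟩

theorem PicQ.exists_mk {P : SubPicCondition c ε} {T : Scheme.{u}} (x : PicQ c ε P T) :
    ∃ (t : T ⟶ Spec (CommRingCat.of R)) (M : RigidifiedLineBundle c ε t) (hM : P.P t M),
      x = PicQ.mk t M hM := by
  induction x using Quotient.ind with
  | _ a => exact ⟨a.t, a.M, a.mem, rfl⟩

/-- Two classes over the same structure map agree iff the sheaves are isomorphic. -/
theorem PicQ.mk_eq_mk_iff {P : SubPicCondition c ε} {T : Scheme.{u}}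
    {t : T ⟶ Spec (CommRingCat.of R)} (M M' : RigidifiedLineBundle c ε t) (hM : P.P t M)
    (hM' : P.P t M') : PicQ.mk t M hM = PicQ.mk t M' hM' ↔ Nonempty (M.L ≅ M'.L) := by
  rw [← Obj.rel_mk_iff M M' hM hM']
  exact Quotient.eq (r := Obj.setoid P T)

/-- The structure map of a class. -/
def PicQ.base {P : SubPicCondition c ε} {T : Scheme.{u}} (x : PicQ c ε P T) :
    T ⟶ Spec (CommRingCat.of R) :=
  Quotient.lift (s := Obj.setoid P T) (fun a => a.t) (fun _ _ h => h.1) x

@[simp] theorem PicQ.base_mk {P : SubPicCondition c ε} {T : Scheme.{u}}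
    (t : T ⟶ Spec (CommRingCat.of R)) (M : RigidifiedLineBundle c ε t) (hM : P.P t M) :
    (PicQ.mk t M hM).base = t := rfl

/-- General criterion for equality of classes over possibly different (equal) structure maps. -/
theorem PicQ.mk_eq_mk_iff' {P : SubPicCondition c ε} {T : Scheme.{u}}
    {t t' : T ⟶ Spec (CommRingCat.of R)} (M : RigidifiedLineBundle c ε t)
    (M' : RigidifiedLineBundle c ε t') (hM : P.P t M) (hM' : P.P t' M') :
    PicQ.mk t M hM = PicQ.mk t' M' hM' ↔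
      ∃ h : t = t', Nonempty (M.L ≅
        (M'.pullbackAlong ⟨𝟙 T, (Category.id_comp _).trans h.symm⟩).L) :=
  Quotient.eq (r := Obj.setoid P T)

/-- Pullback of objects along an arbitrary morphism of schemes. -/
def Obj.pull {P : SubPicCondition c ε} {T T' : Scheme.{u}} (ψ : T' ⟶ T) (x : Obj c ε P T) :
    Obj c ε P T' :=
  ⟨ψ ≫ x.t, x.M.pullbackAlong ⟨ψ, rfl⟩, P.pullback_mem _ _ _ _ x.mem⟩

theorem Obj.pull_rel {P : SubPicCondition c ε} {T T' : Scheme.{u}} (ψ : T' ⟶ T)
    {x y : Obj c ε P T} (h : x.Rel y) : (x.pull ψ).Rel (y.pull ψ) := by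
  obtain ⟨t, M, hM⟩ := x
  obtain ⟨t', M', hM'⟩ := y
  obtain ⟨h1, h2⟩ := h
  dsimp only at h1
  subst h1
  obtain ⟨e⟩ := (Obj.rel_mk_iff M M' hM hM').1 ⟨rfl, h2⟩
  exact (Obj.rel_mk_iff _ _ _ _).2 ⟨pullbackAlongMapIso _ e⟩

/-- Functoriality of `PicQ` in `T`. -/
def PicQ.map {P : SubPicCondition c ε} {T T' : Scheme.{u}} (ψ : T' ⟶ T) :
    PicQ c ε P T → PicQ c ε P T' :=
  Quotient.map (sa := Obj.setoid P T) (sb := Obj.setoid P T') (Obj.pull ψ)
    (fun _ _ h => Obj.pull_rel ψ h)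

@[simp] theorem PicQ.map_mk {P : SubPicCondition c ε} {T T' : Scheme.{u}} (ψ : T' ⟶ T)
    (t : T ⟶ Spec (CommRingCat.of R)) (M : RigidifiedLineBundle c ε t) (hM : P.P t M) :
    PicQ.map ψ (PicQ.mk t M hM) =
      PicQ.mk (ψ ≫ t) (M.pullbackAlong ⟨ψ, rfl⟩) (P.pullback_mem _ _ _ _ hM) := rfl

@[simp] theorem PicQ.base_map {P : SubPicCondition c ε} {T T' : Scheme.{u}} (ψ : T' ⟶ T)
    (x : PicQ c ε P T) : (PicQ.map ψ x).base = ψ ≫ x.base := by
  obtain ⟨t, M, hM, rfl⟩ := x.exists_mk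
  rfl

theorem PicQ.map_id {P : SubPicCondition c ε} {T : Scheme.{u}} (x : PicQ c ε P T) :
    PicQ.map (𝟙 T) x = x := by
  obtain ⟨t, M, hM, rfl⟩ := x.exists_mk
  rw [PicQ.map_mk, PicQ.mk_eq_mk_iff']
  exact ⟨Category.id_comp _, ⟨Iso.refl _⟩⟩

theorem PicQ.map_comp {P : SubPicCondition c ε} {T T' T'' : Scheme.{u}} (χ : T'' ⟶ T')
    (ψ : T' ⟶ T) (x : PicQ c ε P T) :
    PicQ.map (χ ≫ ψ) x = PicQ.map χ (PicQ.map ψ x) := by
  obtain ⟨t, M, hM, rfl⟩ := x.exists_mk
  rw [PicQ.map_mk, PicQ.map_mk, PicQ.map_mk, PicQ.mk_eq_mk_iff']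
  refine ⟨Category.assoc _ _ _, ⟨?_⟩⟩
  refine ?_ ≪≫ (pullbackAlongMapIso _ (pullbackAlongCompIso M _ _)).symm
  refine ?_ ≪≫ (pullbackAlongCompIso M _ _).symm
  exact pullbackAlongCongrIso M (Subtype.ext (by simp [postComp]))

variable (c ε)

/-- The functor `T ↦ PicQ P T` on all schemes. -/
def picFunctor (P : SubPicCondition c ε) : Scheme.{u}ᵒᵖ ⥤ Type (u + 1) where
  obj T := PicQ c ε P T.unop
  map ψ := TypeCat.ofHom (PicQ.map (c := c) (ε := ε) (P := P) ψ.unop)
  map_id _ := TypeCat.homEquiv.injective (funext fun x => PicQ.map_id x)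
  map_comp ψ χ := TypeCat.homEquiv.injective (funext fun x => PicQ.map_comp χ.unop ψ.unop x)

/-! ### Representing objects -/

/-- `J` represents the functor `T ↦ PicQ P T`. -/
structure PicRepr (P : SubPicCondition c ε) (J : Scheme.{u}) where
  homEquiv : ∀ {T : Scheme.{u}}, (T ⟶ J) ≃ PicQ c ε P T
  homEquiv_comp : ∀ {T T' : Scheme.{u}} (ψ : T' ⟶ T) (g : T ⟶ J),
    homEquiv (ψ ≫ g) = PicQ.map ψ (homEquiv g)

/-- What package B1 has to provide: a `Type u`-valued functor naturally equivalent to `PicQ P`. -/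
structure Model (P : SubPicCondition c ε) (F : Scheme.{u}ᵒᵖ ⥤ Type u) where
  e : ∀ T : Scheme.{u}, F.obj (op T) ≃ PicQ c ε P T
  e_map : ∀ {T T' : Scheme.{u}} (ψ : T' ⟶ T) (x : F.obj (op T)),
    e T' (F.map ψ.op x) = PicQ.map ψ (e T x)

variable {c ε}

/-- A Mathlib representation of a model functor is a `PicRepr`. -/
def Model.picRepr {P : SubPicCondition c ε} {F : Scheme.{u}ᵒᵖ ⥤ Type u} (m : Model c ε P F)
    {J : Scheme.{u}} (hJ : F.RepresentableBy J) : PicRepr c ε P J where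
  homEquiv {T} := hJ.homEquiv.trans (m.e T)
  homEquiv_comp {T T'} ψ g := by
    simp only [Equiv.trans_apply]
    rw [hJ.homEquiv_comp, m.e_map]

/-- The structure map of the representing object. -/
def PicRepr.toBase {P : SubPicCondition c ε} {J : Scheme.{u}} (h : PicRepr c ε P J) :
    J ⟶ Spec (CommRingCat.of R) :=
  (h.homEquiv (𝟙 J)).base

theorem PicRepr.base_homEquiv {P : SubPicCondition c ε} {J : Scheme.{u}} (h : PicRepr c ε P J)
    {T : Scheme.{u}} (g : T ⟶ J) : (h.homEquiv g).base = g ≫ h.toBase := by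
  have := h.homEquiv_comp g (𝟙 J)
  rw [Category.comp_id] at this
  rw [this, PicQ.base_map, PicRepr.toBase]

/-- A `PicRepr` yields the Poincaré bundle and the universal property in the Prelude form. -/
theorem PicRepr.exists_universal {P : SubPicCondition c ε} {J : Scheme.{u}}
    (h : PicRepr c ε P J) :
    ∃ (Pc : RigidifiedLineBundle c ε h.toBase) (hPc : P.P h.toBase Pc),
      (∀ {T : Scheme.{u}} (g : T ⟶ J),
        h.homEquiv g = PicQ.mk (g ≫ h.toBase) (Pc.pullbackAlong ⟨g, rfl⟩)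
          (P.pullback_mem _ _ _ _ hPc)) ∧
      ∀ {T : Scheme.{u}} (t : T ⟶ Spec (CommRingCat.of R)) (M : RigidifiedLineBundle c ε t),
        P.P t M → ∃! g : SchemeHomOver t h.toBase, Nonempty ((Pc.pullbackAlong g).L ≅ M.L) := by
  obtain ⟨tJ, Pc, hPc, hx⟩ := (h.homEquiv (𝟙 J)).exists_mk
  have htJ : h.toBase = tJ := by rw [PicRepr.toBase, hx, PicQ.base_mk]
  subst htJ
  have key : ∀ {T : Scheme.{u}} (g : T ⟶ J),
      h.homEquiv g = PicQ.mk (g ≫ h.toBase) (Pc.pullbackAlong ⟨g, rfl⟩)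
        (P.pullback_mem _ _ _ _ hPc) := by
    intro T g
    have := h.homEquiv_comp g (𝟙 J)
    rw [Category.comp_id] at this
    rw [this, hx, PicQ.map_mk]
  refine ⟨Pc, hPc, key, ?_⟩
  intro T t M hM
  -- the classifying map
  obtain ⟨g, hg⟩ : ∃ g : T ⟶ J, h.homEquiv g = PicQ.mk t M hM :=
    ⟨_, h.homEquiv.apply_symm_apply _⟩
  have hg' := hg
  rw [key g, PicQ.mk_eq_mk_iff'] at hg'
  obtain ⟨hgt, ⟨e⟩⟩ := hg'
  refine ⟨⟨g, hgt⟩, ?_, ?_⟩
  · subst hgt
    exact ⟨e ≪≫ pullbackAlongIdIso M _⟩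
  · rintro ⟨g', hg't⟩ ⟨e'⟩
    subst hg't
    apply Subtype.ext
    change g' = g
    apply h.homEquiv.injective
    rw [hg, key g', PicQ.mk_eq_mk_iff]
    exact ⟨e'⟩

/-! ### From a universal family to the frozen conclusion -/

/-- A universal family over `toBase : J ⟶ Spec R` gives a `RepresentsRelSubPic` structure:
the zero section is the classifying map of the unit bundle. -/
theorem exists_designation_of_universal (P : SubPicCondition c ε)
    (J : Scheme.{u}) (toBase : J ⟶ Spec (CommRingCat.of R))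
    (Pc : RigidifiedLineBundle c ε toBase) (hPc : P.P toBase Pc)
    (huniv : ∀ {T : Scheme.{u}} (t : T ⟶ Spec (CommRingCat.of R)) (M : RigidifiedLineBundle c ε t),
      P.P t M → ∃! g : SchemeHomOver t toBase, Nonempty ((Pc.pullbackAlong g).L ≅ M.L)) :
    ∃ (zs : Spec (CommRingCat.of R) ⟶ J) (hzs : zs ≫ toBase = 𝟙 (Spec (CommRingCat.of R))),
      Nonempty (RepresentsRelSubPic c ε P ⟨J, toBase, zs, hzs⟩) := by
  obtain ⟨⟨zs, hzs⟩, hz, -⟩ := huniv (𝟙 (Spec (CommRingCat.of R)))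
    (RigidifiedLineBundle.unit (c := c) (ε := ε) (𝟙 _)) (P.unit_mem _)
  exact ⟨zs, hzs, ⟨{
    poincare := Pc
    poincare_mem := hPc
    univ := fun t M hM => huniv t M hM
    zero := hz }⟩⟩

/-- The frozen S25 conclusion from a universal family with the three geometric properties. -/
theorem result_of_universal
    (k : Type u) [Field k] {C : Scheme.{u}} (c : C ⟶ Spec (CommRingCat.of k))
    (ε : SchemeHomOver (𝟙 (Spec (CommRingCat.of k))) c)
    (J : Scheme.{u}) (toBase : J ⟶ Spec (CommRingCat.of k))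
    (Pc : RigidifiedLineBundle c ε toBase) (hPc : FibrewiseAlgEquivZero Pc)
    (huniv : ∀ {T : Scheme.{u}} (t : T ⟶ Spec (CommRingCat.of k)) (M : RigidifiedLineBundle c ε t),
      FibrewiseAlgEquivZero M →
        ∃! g : SchemeHomOver t toBase, Nonempty ((Pc.pullbackAlong g).L ≅ M.L))
    (hs : Smooth toBase) (hp : IsProper toBase) (hg : GeometricallyConnected toBase) :
    ∃ D : RelativePic0Designation k c,
      Nonempty (RepresentsRelSubPic c ε (algEquivZeroCut c ε) D) ∧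
        Smooth D.toBase ∧ IsProper D.toBase ∧ GeometricallyConnected D.toBase := by
  obtain ⟨zs, hzs, hrep⟩ :=
    exists_designation_of_universal (algEquivZeroCut c ε) J toBase Pc hPc huniv
  exact ⟨⟨J, toBase, zs, hzs⟩, hrep, hs, hp, hg⟩

/-- The frozen S25 conclusion from a representing object of the functor `PicQ (algEquivZeroCut c ε)`
whose structure map is smooth, proper and geometrically connected. -/
theorem result_of_picRepr
    (k : Type u) [Field k] {C : Scheme.{u}} (c : C ⟶ Spec (CommRingCat.of k))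
    (ε : SchemeHomOver (𝟙 (Spec (CommRingCat.of k))) c)
    (J : Scheme.{u}) (h : PicRepr c ε (algEquivZeroCut c ε) J)
    (hs : Smooth h.toBase) (hp : IsProper h.toBase) (hg : GeometricallyConnected h.toBase) :
    ∃ D : RelativePic0Designation k c,
      Nonempty (RepresentsRelSubPic c ε (algEquivZeroCut c ε) D) ∧
        Smooth D.toBase ∧ IsProper D.toBase ∧ GeometricallyConnected D.toBase := by
  obtain ⟨Pc, hPc, -, huniv⟩ := h.exists_universal
  exact result_of_universal k c ε J h.toBase Pc hPc huniv hs hp hg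

end

end Fermat.Agent.S25.MACH.PicTop
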