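/-
S25 package MACH, interface wiring (helper1070): translation between the scheme-side hypotheses
of the abstract machine `SC3.exists_represents_of_charts` (helper970) and the frozen algebra-side
interface (`Dictionary`, `ChartAtlas`, the stubs of BC and ZAR).
-/
import Fermat.Agent.S25.SchDefs
import Fermat.Agent.S25.AlgDefs
import Fermat.Agent.S25.BC
import Fermat.Agent.S25.ZAR
import Fermat.Agent.S25.MACH.SC3.Machine

set_option autoImplicit false

universe u

namespace Fermat.Agent.S25.MACH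

open CategoryTheory CategoryTheory.Limits AlgebraicGeometry AlgebraicGeometry.RelPicard
  NeronModelInfra GoodReductionJacobian

noncomputable section

variable {k : Type u} [Field k]

/-! ### Affine test schemes over `Spec k` -/

/-- Every structure map `Spec A ⟶ Spec k` is `tR k A` for the induced algebra structure. -/
theorem exists_algebra_tR (A : CommRingCat.{u}) (a : Spec A ⟶ Spec (CommRingCat.of k)) :
    ∃ inst : Algebra k A, a = @tR k _ A _ inst := by
  refine ⟨(Spec.preimage a).hom.toAlgebra, ?_⟩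
  let _ : Algebra k A := (Spec.preimage a).hom.toAlgebra
  have h : algebraMap k A = (Spec.preimage a).hom := RingHom.algebraMap_toAlgebra _
  unfold tR
  rw [h, CommRingCat.ofHom_hom, Spec.map_preimage]

/-- Every morphism over `Spec k` between affine schemes comes from a `k`-algebra map. -/
theorem exists_algHom_specHomOver {A B : Type u} [CommRing A] [Algebra k A] [CommRing B]
    [Algebra k B] (g : SchemeHomOver (tR k A) (tR k B)) :
    ∃ γ : B →ₐ[k] A, g = specHomOver k γ := by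
  have h1 : Spec.map (CommRingCat.ofHom (algebraMap k B) ≫ Spec.preimage g.1) =
      Spec.map (CommRingCat.ofHom (algebraMap k A)) := by
    rw [Spec.map_comp, Spec.map_preimage]
    exact g.2
  have h2 := Spec.map_injective h1
  have h3 : ∀ r : k, (Spec.preimage g.1).hom (algebraMap k B r) = algebraMap k A r := by
    intro r
    have := congrArg (fun f => f.hom r) h2
    simpa using this
  refine ⟨⟨(Spec.preimage g.1).hom, h3⟩, ?_⟩
  apply Subtype.ext
  change g.1 = Spec.map (CommRingCat.ofHom _)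
  conv_lhs => rw [← Spec.map_preimage g.1]
  rfl

theorem specHomOver_injective {A B : Type u} [CommRing A] [Algebra k A] [CommRing B]
    [Algebra k B] (γ γ' : B →ₐ[k] A) (h : specHomOver k γ = specHomOver k γ') : γ = γ' := by
  have h1 : Spec.map (CommRingCat.ofHom (γ : B →+* A)) =
      Spec.map (CommRingCat.ofHom (γ' : B →+* A)) := congrArg Subtype.val h
  have h2 := Spec.map_injective h1
  ext b
  have := congrArg (fun f => f.hom b) h2
  simpa using this

/-! ### Iterated pullbacks -/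

variable {C : Scheme.{u}} {c : C ⟶ Spec (CommRingCat.of k)}
  {ε : SchemeHomOver (𝟙 (Spec (CommRingCat.of k))) c} {𝒞 : CurveData k}

/-- Pulling back twice is pulling back along the composite. -/
theorem pullbackAlong_pullbackAlong {T T' T'' : Scheme.{u}} {t : T ⟶ Spec (CommRingCat.of k)}
    {t' : T' ⟶ Spec (CommRingCat.of k)} {t'' : T'' ⟶ Spec (CommRingCat.of k)}
    (M : RigidifiedLineBundle c ε t) (φ : SchemeHomOver t' t) (ψ : SchemeHomOver t'' t') :
    Nonempty ((M.pullbackAlong (postComp φ ψ)).L ≅ ((M.pullbackAlong φ).pullbackAlong ψ).L) :=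
  ⟨(Scheme.Modules.pullbackCongr (baseChangeSnd_comp c φ ψ).symm).app M.L ≪≫
    ((Scheme.Modules.pullbackComp _ _).app M.L).symm⟩

/-! ### Degree zero: scheme side versus algebra side -/

/-- For a rigidified bundle over an affine base corresponding to the glued module `N`:
scheme-side `IsDeg0` is algebra-side `Deg0`. -/
theorem isDeg0_iff_deg0 (𝒟 : Dictionary c ε 𝒞) {R : Type u} [CommRing R] [Algebra k R]
    (M : RigidifiedLineBundle c ε (tR k R)) (N : GluedModule (𝒞.chart R))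
    (hMN : 𝒟.Corr R M.L N) : IsDeg0 𝒟 (tR k R) M ↔ Deg0 𝒞 N := by
  constructor
  · intro h κ _ _ _ φ N' hBC
    exact h κ (specHomOver k φ) N' (𝒟.bc φ hMN hBC)
  · intro h κ _ _ _ s N'' hN''
    obtain ⟨φ, rfl⟩ := exists_algHom_specHomOver s
    obtain ⟨N', hBC⟩ := exists_isBC 𝒞 φ N
    have h1 := 𝒟.bc φ hMN hBC
    have h2 : Nonempty (N'.Iso N'') := (𝒟.iso_iff h1 hN'').1 ⟨Iso.refl _⟩
    rw [← chi_congr 𝒞 N' N'' h2]
    exact h κ φ N' hBC

section cut

variable (𝒟 : Dictionary c ε 𝒞)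
  (hdeg : ∀ {T : Scheme.{u}} (t : T ⟶ Spec (CommRingCat.of k))
    (M : RigidifiedLineBundle c ε t), FibrewiseAlgEquivZero M ↔ IsDeg0 𝒟 t M)

include hdeg in
/-- A rigidified bundle over an affine base in the cut corresponds to a `Pic⁰` glued module. -/
theorem isPic0_of_corr {R : Type u} [CommRing R] [Algebra k R]
    (M : RigidifiedLineBundle c ε (tR k R)) (hM : FibrewiseAlgEquivZero M)
    (N : GluedModule (𝒞.chart R)) (hMN : 𝒟.Corr R M.L N) : IsPic0 𝒞 N :=
  ⟨𝒟.inv_right hMN, (𝒟.rigid_iff hMN).1 M.rigidified,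
    (isDeg0_iff_deg0 𝒟 M N hMN).1 ((hdeg _ M).1 hM)⟩

include hdeg in
/-- Conversely, a rigidified bundle corresponding to a `Pic⁰` glued module is in the cut. -/
theorem fibrewiseAlgEquivZero_of_corr {R : Type u} [CommRing R] [Algebra k R]
    (M : RigidifiedLineBundle c ε (tR k R)) (N : GluedModule (𝒞.chart R))
    (hMN : 𝒟.Corr R M.L N) (hN : IsPic0 𝒞 N) : FibrewiseAlgEquivZero M :=
  (hdeg _ M).2 ((isDeg0_iff_deg0 𝒟 M N hMN).2 hN.deg0)

include hdeg in
/-- The cut `algEquivZeroCut` is Zariski-local on the base (because `IsDeg0` visibly is). -/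
theorem isLocalCut : SC3.IsLocalCut (algEquivZeroCut c ε) := by
  intro T t M 𝒰 h
  change FibrewiseAlgEquivZero M
  rw [hdeg]
  intro κ _ _ _ s N hN
  obtain ⟨i, y, hy⟩ := 𝒰.exists_eq (s.1 (default : PrimeSpectrum κ))
  have hrange : Set.range ⇑s.1 ⊆ Set.range ⇑(𝒰.f i) := by
    rintro _ ⟨z, rfl⟩
    have hz : z = (default : PrimeSpectrum κ) := Subsingleton.elim _ _
    exact ⟨y, by rw [hy, hz]⟩
  let s' : Spec (CommRingCat.of κ) ⟶ 𝒰.X i := IsOpenImmersion.lift (𝒰.f i) s.1 hrange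
  have hs' : s' ≫ 𝒰.f i = s.1 := IsOpenImmersion.lift_fac _ _ _
  let s'' : SchemeHomOver (tR k κ) (𝒰.f i ≫ t) :=
    ⟨s', by rw [← Category.assoc, hs']; exact s.2⟩
  have hi : IsDeg0 𝒟 (𝒰.f i ≫ t) (M.pullbackAlong ⟨𝒰.f i, rfl⟩) := (hdeg _ _).1 (h i)
  have hpost : postComp (⟨𝒰.f i, rfl⟩ : SchemeHomOver (𝒰.f i ≫ t) t) s'' = s :=
    Subtype.ext hs'
  have e := pullbackAlong_pullbackAlong M (⟨𝒰.f i, rfl⟩ : SchemeHomOver (𝒰.f i ≫ t) t) s''
  rw [hpost] at e
  exact hi κ s'' N (𝒟.congr hN e ⟨GluedModule.Iso.refl N⟩)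

include 𝒟 in
/-- (sep) in the form used by the machine. -/
theorem rigSep : SC3.RigSep (algEquivZeroCut c ε) :=
  fun t M M' 𝒰 _ _ h => sep 𝒟 t M M' 𝒰 h

include 𝒟 in
/-- (glue) in the form used by the machine. -/
theorem rigGlue : SC3.RigGlue (algEquivZeroCut c ε) :=
  fun t 𝒰 M _ h => glue 𝒟 t 𝒰 M h

end cut

/-! ### The charts -/

section charts

variable (𝒟 : Dictionary c ε 𝒞) (𝒜 : ChartAtlas 𝒞)

/-- The rigidified bundle on `C × Spec (S i)` corresponding to the universal glued module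
`𝒜.P i` of the chart. -/
def chartBundle (i : 𝒜.ι) : RigidifiedLineBundle c ε (tR k (𝒜.S i)) where
  L := (𝒟.exists_module (𝒜.P i) (𝒜.P_pic0 i).lineBundle).choose
  isInvertible := 𝒟.inv_left (𝒟.exists_module (𝒜.P i) (𝒜.P_pic0 i).lineBundle).choose_spec
  rigidified := (𝒟.rigid_iff (𝒟.exists_module (𝒜.P i) (𝒜.P_pic0 i).lineBundle).choose_spec).2
    (𝒜.P_pic0 i).rigid

theorem chartBundle_corr (i : 𝒜.ι) : 𝒟.Corr (𝒜.S i) (chartBundle 𝒟 𝒜 i).L (𝒜.P i) :=
  (𝒟.exists_module (𝒜.P i) (𝒜.P_pic0 i).lineBundle).choose_spec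

/-- The pullback of the chart bundle along `Spec γ` corresponds to any base change of `P i`
along `γ`. -/
theorem chartBundle_pullback_corr (i : 𝒜.ι) {R : Type u} [CommRing R] [Algebra k R]
    (γ : 𝒜.S i →ₐ[k] R) (N : GluedModule (𝒞.chart R))
    (hN : GluedModule.IsBC (𝒞.chartHom γ) (𝒜.P i) N) :
    𝒟.Corr R ((chartBundle 𝒟 𝒜 i).pullbackAlong (specHomOver k γ)).L N :=
  𝒟.bc γ (chartBundle_corr 𝒟 𝒜 i) hN

/-- A bundle over an affine base corresponding to a `Pic⁰` glued module `N` is classified by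
the chart `i` iff `N` lies in the chart `i`. -/
theorem classified_iff_chart (i : 𝒜.ι) {R : Type u} [CommRing R] [Algebra k R]
    (M : RigidifiedLineBundle c ε (tR k R)) (N : GluedModule (𝒞.chart R))
    (hMN : 𝒟.Corr R M.L N) (hN : IsPic0 𝒞 N) :
    (∃ g : SchemeHomOver (tR k R) (tR k (𝒜.S i)),
      Nonempty (((chartBundle 𝒟 𝒜 i).pullbackAlong g).L ≅ M.L)) ↔ 𝒜.chart i R N := by
  constructor
  · rintro ⟨g, e⟩
    obtain ⟨γ, rfl⟩ := exists_algHom_specHomOver g
    obtain ⟨N', hBC⟩ := exists_isBC 𝒞 γ (𝒜.P i)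
    have h1 := chartBundle_pullback_corr 𝒟 𝒜 i γ N' hBC
    have h2 : Nonempty (N'.Iso N) := (𝒟.iso_iff h1 hMN).1 e
    have h3 : 𝒜.chart i R N' := 𝒜.chart_bc i γ (𝒜.P i) N' (𝒜.chart_P i) hBC
    exact 𝒜.chart_bc i (AlgHom.id k R) N' N h3 ((isBC_id_iff 𝒞 N' N).2 h2)
  · intro hch
    obtain ⟨γ, hγ, -⟩ := 𝒜.univ i N hN hch
    have h1 := chartBundle_pullback_corr 𝒟 𝒜 i γ N hγ
    exact ⟨specHomOver k γ, (𝒟.iso_iff h1 hMN).2 ⟨GluedModule.Iso.refl N⟩⟩

/-- Classifying maps from affine schemes into a chart are unique. -/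
theorem chart_inj (i : 𝒜.ι) (A : CommRingCat.{u}) (a : Spec A ⟶ Spec (CommRingCat.of k))
    (g g' : SchemeHomOver a (tR k (𝒜.S i)))
    (e : Nonempty (((chartBundle 𝒟 𝒜 i).pullbackAlong g).L ≅
      ((chartBundle 𝒟 𝒜 i).pullbackAlong g').L)) : g = g' := by
  obtain ⟨inst, rfl⟩ := exists_algebra_tR A a
  obtain ⟨γ, rfl⟩ := exists_algHom_specHomOver g
  obtain ⟨γ', rfl⟩ := exists_algHom_specHomOver g'
  obtain ⟨N, hBC⟩ := exists_isBC 𝒞 γ (𝒜.P i)
  obtain ⟨N', hBC'⟩ := exists_isBC 𝒞 γ' (𝒜.P i)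
  have h1 := chartBundle_pullback_corr 𝒟 𝒜 i γ N hBC
  have h2 := chartBundle_pullback_corr 𝒟 𝒜 i γ' N' hBC'
  have h3 : Nonempty (N.Iso N') := (𝒟.iso_iff h1 h2).1 e
  have h4 : GluedModule.IsBC (𝒞.chartHom γ') (𝒜.P i) N :=
    isBC_of_iso 𝒞 γ' (𝒜.P i) (𝒜.P i) N' N hBC' ⟨GluedModule.Iso.refl _⟩
      (h3.map GluedModule.Iso.symm)
  have hN : IsPic0 𝒞 N := isPic0_of_isBC 𝒞 γ (𝒜.P i) N (𝒜.P_pic0 i) hBC
  have hch : 𝒜.chart i A N := 𝒜.chart_bc i γ (𝒜.P i) N (𝒜.chart_P i) hBC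
  have := (𝒜.univ i N hN hch).unique hBC h4
  rw [this]

section charts2

variable (hdeg : ∀ {T : Scheme.{u}} (t : T ⟶ Spec (CommRingCat.of k))
    (M : RigidifiedLineBundle c ε t), FibrewiseAlgEquivZero M ↔ IsDeg0 𝒟 t M)

include hdeg in
/-- The chart bundles are in the cut. -/
theorem chartBundle_mem (i : 𝒜.ι) : FibrewiseAlgEquivZero (chartBundle 𝒟 𝒜 i) :=
  fibrewiseAlgEquivZero_of_corr 𝒟 hdeg _ _ (chartBundle_corr 𝒟 𝒜 i) (𝒜.P_pic0 i)

include hdeg in
/-- The locus of an affine base where a bundle is classified by the chart `i` is open,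
compatibly with base change. -/
theorem chart_open (i : 𝒜.ι) (A : CommRingCat.{u}) (a : Spec A ⟶ Spec (CommRingCat.of k))
    (M : RigidifiedLineBundle c ε a) (hM : FibrewiseAlgEquivZero M) :
    ∃ W : (Spec A).Opens, ∀ (A' : CommRingCat.{u}) (φ : A ⟶ A'),
      (∃ g : SchemeHomOver (Spec.map φ ≫ a) (tR k (𝒜.S i)),
        Nonempty (((chartBundle 𝒟 𝒜 i).pullbackAlong g).L ≅
          (M.pullbackAlong (⟨Spec.map φ, rfl⟩ : SchemeHomOver (Spec.map φ ≫ a) a)).L)) ↔
        Set.range ⇑(Spec.map φ) ⊆ (W : Set (Spec A)) := by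
  obtain ⟨inst, rfl⟩ := exists_algebra_tR A a
  obtain ⟨N, hMN⟩ := 𝒟.exists_glued M.L M.isInvertible
  have hN : IsPic0 𝒞 N := isPic0_of_corr 𝒟 hdeg M hM N hMN
  refine ⟨⟨𝒜.locus i A N, 𝒜.locus_open i N hN⟩, fun A' φ => ?_⟩
  -- generalise the structure map of `Spec A'`
  have key : ∀ (a' : Spec A' ⟶ Spec (CommRingCat.of k)) (h : Spec.map φ ≫ tR k A = a'),
      (∃ g : SchemeHomOver a' (tR k (𝒜.S i)),
        Nonempty (((chartBundle 𝒟 𝒜 i).pullbackAlong g).L ≅
          (M.pullbackAlong (⟨Spec.map φ, h⟩ : SchemeHomOver a' (tR k A))).L)) ↔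
        Set.range (PrimeSpectrum.comap φ.hom) ⊆ 𝒜.locus i A N := by
    intro a' h
    let inst' : Algebra k A' := (φ.hom.comp (algebraMap k A)).toAlgebra
    let φ' : A →ₐ[k] A' := ⟨φ.hom, fun r => rfl⟩
    have h2 : a' = tR k A' := by
      rw [← h]
      unfold tR
      rw [← Spec.map_comp]
      rfl
    subst h2
    have h3 : (⟨Spec.map φ, h⟩ : SchemeHomOver (tR k A') (tR k A)) = specHomOver k φ' :=
      Subtype.ext rfl
    rw [h3]
    obtain ⟨N', hBC⟩ := exists_isBC 𝒞 φ' N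
    have hMN' : 𝒟.Corr A' (M.pullbackAlong (specHomOver k φ')).L N' := 𝒟.bc φ' hMN hBC
    have hN' : IsPic0 𝒞 N' := isPic0_of_isBC 𝒞 φ' N N' hN hBC
    exact (classified_iff_chart 𝒟 𝒜 i (M.pullbackAlong (specHomOver k φ')) N' hMN' hN').trans
      (𝒜.locus_spec i φ' N N' hN hBC)
  refine (key _ rfl).trans ?_
  have h4 : ∀ z, (Spec.map φ) z = PrimeSpectrum.comap φ.hom z := by
    intro z
    rw [Spec.map_base]
    rfl
  constructor
  · rintro h _ ⟨z, rfl⟩
    have := h ⟨z, rfl⟩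
    rw [← h4] at this
    exact this
  · rintro h _ ⟨z, rfl⟩
    have := h ⟨z, rfl⟩
    have h5 : PrimeSpectrum.comap φ.hom z = (Spec.map φ) z := (h4 z).symm
    rw [h5]
    exact this

include hdeg in
/-- Every bundle in the cut over an algebraically closed field is classified by a chart. -/
theorem chart_cover (K : Type u) [Field K] [IsAlgClosed K]
    (a : Spec (CommRingCat.of K) ⟶ Spec (CommRingCat.of k))
    (M : RigidifiedLineBundle c ε a) (hM : FibrewiseAlgEquivZero M) :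
    ∃ (i : 𝒜.ι) (g : SchemeHomOver a (tR k (𝒜.S i))),
      Nonempty (((chartBundle 𝒟 𝒜 i).pullbackAlong g).L ≅ M.L) := by
  obtain ⟨inst, rfl⟩ := exists_algebra_tR (CommRingCat.of K) a
  obtain ⟨N, hMN⟩ := 𝒟.exists_glued M.L M.isInvertible
  have hN : IsPic0 𝒞 N := isPic0_of_corr 𝒟 hdeg M hM N hMN
  have hcov := 𝒜.locus_cover N hN
  have hpt : (default : PrimeSpectrum K) ∈ ⋃ i, 𝒜.locus i K N := by rw [hcov]; trivial
  obtain ⟨i, hi⟩ := Set.mem_iUnion.1 hpt
  have hch : 𝒜.chart i K N := by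
    rw [𝒜.locus_spec i (AlgHom.id k K) N N hN ((isBC_id_iff 𝒞 N N).2 ⟨GluedModule.Iso.refl N⟩)]
    rintro _ ⟨z, rfl⟩
    have hz : PrimeSpectrum.comap ((AlgHom.id k K : K →ₐ[k] K) : K →+* K) z =
        (default : PrimeSpectrum K) := Subsingleton.elim _ _
    rw [hz]
    exact hi
  obtain ⟨g, hg⟩ := (classified_iff_chart 𝒟 𝒜 i M N hMN hN).2 hch
  exact ⟨i, g, hg⟩

end charts2

end charts

/-! ### Smoothness of the charts -/

theorem smooth_tR (S : Type u) [CommRing S] [Algebra k S] (h1 : Algebra.FiniteType k S)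
    (h2 : Algebra.FormallySmooth k S) : Smooth (tR k S) := by
  unfold tR
  rw [HasRingHomProperty.Spec_iff (P := @Smooth)]
  change (algebraMap k S).Smooth
  rw [RingHom.smooth_algebraMap]
  exact ⟨h2, Algebra.FinitePresentation.of_finiteType.1 h1⟩

end

end Fermat.Agent.S25.MACH
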